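/-
S48 (Deligne–Serre), brick J2 (helper72): the contract statement `Contract.PatchStatement`
(Steps 4–6) is proved; it is `Patch.exists_complex_rep` verbatim.
-/
import Fermat.Agent.S48.Contract
import Fermat.Agent.S48.Patch

set_option autoImplicit false

namespace Fermat.Agent.S48.Patch

/-- **(J2)** `Contract.PatchStatement` holds. -/
theorem patchStatement : Fermat.Agent.S48.Contract.PatchStatement :=
  fun N a e A H => exists_complex_rep N a e A H

end Fermat.Agent.S48.Patch
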